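import Mathlib
import Fermat.Prelude.Def_FLTPrelim_FreyPackage
import Fermat.Prelude.Def_FLTPrelim_GaloisRep
import Fermat.Prelude.Def_FLTPrelim_Modularity
import Fermat.Prelude.Def_FLTPrelim_ModularRep
import Fermat.Prelude.Def_FLTPrelim_Ramification
import Fermat.Prelude.Def_FreyPackage_IsConductorLevel

/-!
# S45 core: level descent to level 2 (conditional on the level-lowering inputs)

`s45_of_inputs` derives the S45 conclusion from the statements S05, S06, S43, S44 and S08,
all passed as hypotheses.  No frozen constant is cited.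
-/

set_option autoImplicit false
open WeierstrassCurve WeierstrassCurve.Affine WeierstrassCurve.Affine.Point
open CuspForm ModularFormClass UpperHalfPlane
open FreyPackage

namespace Fermat.Agent.S45Core

/-- Level descent: starting from a conductor level `N` at which the Frey representation is modular,
strip every odd prime `q ≠ p` (input `h43`, using unramifiedness `h05`) and `p` (input `h44`),
arriving at a level dividing `2`. -/
theorem level_descent (P : FreyPackage)
    (h05 : ∀ q : ℕ, q.Prime → q ≠ 2 → q ≠ P.p → P.GaloisRepUnramifiedAt q)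
    (h43 : ∀ N q : ℕ, P.IsConductorLevel N → q.Prime → q ≠ 2 → q ≠ P.p → q ∣ N →
      P.ModularRepOfLevel N → P.GaloisRepUnramifiedAt q →
      ∃ M : ℕ, M ∣ N ∧ ¬ q ∣ M ∧ P.ModularRepOfLevel M)
    (h44 : ∀ N : ℕ, P.IsConductorLevel N → P.p ∣ N → P.ModularRepOfLevel N →
      ∃ M : ℕ, M ∣ N ∧ ¬ P.p ∣ M ∧ P.ModularRepOfLevel M) :
    ∀ N : ℕ, P.IsConductorLevel N → P.ModularRepOfLevel N →
      ∃ M : ℕ, M ∣ 2 ∧ P.ModularRepOfLevel M := by
  intro N
  induction N using Nat.strong_induction_on with
  | _ N ih =>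
    intro hcond hmod
    by_cases hN2 : N ∣ 2
    · exact ⟨N, hN2, hmod⟩
    · -- there is a prime `q ∣ N` with `q ≠ 2`
      have hex : ∃ q : ℕ, q.Prime ∧ q ∣ N ∧ q ≠ 2 := by
        by_contra hno
        push Not at hno
        apply hN2
        -- every prime factor of `N` is `2` and `N` is squarefree, so `N ∣ 2`
        have hsq := hcond.squarefree
        have hpos := hcond.pos
        rcases Nat.eq_or_lt_of_le (Nat.succ_le_of_lt hpos) with h1 | h1
        · rw [← h1]; exact one_dvd 2
        · -- N ≥ 2: has a prime factor, which must be 2; write N = 2 * k with k coprime to 2 etc.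
          obtain ⟨k, hk⟩ : 2 ∣ N := by
            obtain ⟨r, hr, hrN⟩ := Nat.exists_prime_and_dvd (show N ≠ 1 by omega)
            have := hno r hr hrN
            rwa [this] at hrN
          -- k = 1, else a prime factor r of k is 2 and 4 ∣ N
          by_cases hk1 : k = 1
          · subst hk1; rw [hk]
          · exfalso
            obtain ⟨r, hr, hrk⟩ := Nat.exists_prime_and_dvd hk1
            have hrN : r ∣ N := hk ▸ Dvd.dvd.mul_left hrk 2
            have hr2 := hno r hr hrN
            subst hr2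
            apply hcond.not_four_dvd
            obtain ⟨m, hm⟩ := hrk
            exact ⟨m, by rw [hk, hm]; ring⟩
      obtain ⟨q, hq, hqN, hq2⟩ := hex
      have hNpos := hcond.pos
      by_cases hqp : q = P.p
      · subst hqp
        obtain ⟨M, hMN, hpM, hmodM⟩ := h44 N hcond hqN hmod
        have hMpos : 0 < M := Nat.pos_of_dvd_of_pos hMN hNpos
        have hMlt : M < N := by
          refine lt_of_le_of_ne (Nat.le_of_dvd hNpos hMN) ?_
          rintro rfl
          exact hpM hqN
        exact ih M hMlt (hcond.of_dvd hMN hMpos) hmodM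
      · obtain ⟨M, hMN, hqM, hmodM⟩ := h43 N q hcond hq hq2 hqp hqN hmod (h05 q hq hq2 hqp)
        have hMpos : 0 < M := Nat.pos_of_dvd_of_pos hMN hNpos
        have hMlt : M < N := by
          refine lt_of_le_of_ne (Nat.le_of_dvd hNpos hMN) ?_
          rintro rfl
          exact hqM hqN
        exact ih M hMlt (hcond.of_dvd hMN hMpos) hmodM

/-- The S45 conclusion from the inputs S05, S06, S43, S44, S08 (as hypotheses). -/
theorem s45_of_inputs (P : FreyPackage)
    (h05 : ∀ q : ℕ, q.Prime → q ≠ 2 → q ≠ P.p → P.GaloisRepUnramifiedAt q)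
    (h06 : ∃ N : ℕ, P.IsConductorLevel N ∧ P.ModularRepOfLevel N)
    (h43 : ∀ N q : ℕ, P.IsConductorLevel N → q.Prime → q ≠ 2 → q ≠ P.p → q ∣ N →
      P.ModularRepOfLevel N → P.GaloisRepUnramifiedAt q →
      ∃ M : ℕ, M ∣ N ∧ ¬ q ∣ M ∧ P.ModularRepOfLevel M)
    (h44 : ∀ N : ℕ, P.IsConductorLevel N → P.p ∣ N → P.ModularRepOfLevel N →
      ∃ M : ℕ, M ∣ N ∧ ¬ P.p ∣ M ∧ P.ModularRepOfLevel M)
    (h08 : ∀ f : CuspForm (CongruenceSubgroup.Gamma0 1) 2, f = 0) :
    ∃ f : CuspForm (CongruenceSubgroup.Gamma0 2) 2, f ≠ 0 := by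
  obtain ⟨N, hcond, hmod⟩ := h06
  obtain ⟨M, hM2, hmodM⟩ := level_descent P h05 h43 h44 N hcond hmod
  have hM : M = 1 ∨ M = 2 := (Nat.dvd_prime Nat.prime_two).mp hM2
  rcases hM with rfl | rfl
  · obtain ⟨f, -, -, hf, -⟩ := hmodM
    exact absurd (h08 f) hf.ne_zero
  · obtain ⟨f, -, -, hf, -⟩ := hmodM
    exact ⟨f, hf.ne_zero⟩

end Fermat.Agent.S45Core
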